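/-
MLT / [L1] case (C), ORDINARY case (helper9): fork of `Lib/MLT/Fr3/E/Main.lean` (itself the `p = 3` fork of
`Lib/Ihara/E/Main.lean`) with the condition at `p` `IsOrdinaryAt p` (`p ∤ N`, S32) replaced by `IsOrdinaryAt p`
(`p ∥ N` and `ρbar` ordinary at `p`, S33).  Generated by a rename script: only the declarations depending on the
condition at `p` are repeated, with the prefix `jh`/`Jh` replaced by `kh`/`Kh`.
-/
import Mathlib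
import Fermat.Agent.Lib.Ihara.E.Field
import Fermat.Agent.Lib.Ihara.Glue.Top
import Fermat.Agent.Lib.MLT.Fr3.Glue.Top
import Fermat.Agent.Lib.MLT.CO.J.Glue.Top
import Fermat.Agent.Lib.MLT.Fr3.Fr.Control
import Fermat.Agent.Lib.MLT.Fr3.Fr.Cyc
import Fermat.Agent.Lib.MLT.Fr3.Fr.Defs
import Fermat.Agent.Lib.MLT.Fr3.Fr.Free
import Fermat.Agent.Lib.MLT.Fr3.Fr.Ind
import Fermat.Agent.Lib.MLT.Fr3.Fr.Main
import Fermat.Agent.Lib.MLT.Fr3.Fr.Ops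
import Fermat.Agent.Lib.MLT.Fr3.Fr.Red
import Fermat.Agent.Lib.MLT.Fr3.Fr.ToolB
import Fermat.Agent.Lib.MLT.Fr3.Glue.Main
import Fermat.Agent.Lib.MLT.Fr3.Hm.ChiPart
import Fermat.Agent.Lib.MLT.Fr3.Hm.Dia
import Fermat.Agent.Lib.MLT.Fr3.Hm.Part
import Fermat.Agent.Lib.MLT.Fr3.Hm.PartT
import Fermat.Agent.Lib.Ihara.E.Main
import Fermat.Agent.Lib.MLT.Fr3.E.Main
import Fermat.Agent.Lib.MLT.CO.I.Img.Rep
import Fermat.Agent.Lib.MLT.CO.I.Glue.Rep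
import Fermat.Agent.Lib.MLT.CO.I.E.Main
import Fermat.Agent.Lib.MLT.CO.I.Glue.Out
import Fermat.Agent.Lib.MLT.CO.I.E.Out
import Fermat.Agent.Lib.MLT.CO.I.Nf.FieldsChi
import Fermat.Agent.Lib.MLT.CO.I.Glue.Fields
import Fermat.Agent.Lib.MLT.CO.I.Glue.Hecke
import Fermat.Agent.Lib.MLT.CO.I.Sc.Out

set_option autoImplicit false
set_option linter.unusedSectionVars false
set_option linter.unusedVariables false
set_option linter.style.haveILetI false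

open IsLocalRing Matrix Polynomial Fermat.Agent.S53Lib Fermat.Agent.TW
open Matrix MatrixGroups CongruenceSubgroup ModularCurve ModularCurve.Period Module
open Fermat.Agent.DS Fermat.Agent.T1 Fermat.Agent.T1G Fermat.Agent.T2

namespace Fermat.Agent.Ihara

local notation "Qbar" => AlgebraicClosure ℚ
local notation "GQ" => (AlgebraicClosure ℚ ≃ₐ[ℚ] AlgebraicClosure ℚ)

section Main

variable (O : Type) [CommRing O] [IsDomain O] [IsDiscreteValuationRing O] [CharZero O]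
  [IsAdicComplete (IsLocalRing.maximalIdeal O) O] [Finite (ResidueField O)]
  (M : ℕ) [NeZero M] (hM : 6 ≤ M)
  (H : Subgroup (ZMod M)ˣ) (Ps : Set ℕ) (θ₀ : ℕ → O)
  {p : ℕ} [Fact p.Prime] (hL : JhfLevel p M H) (hpO : (p : O) ∈ IsLocalRing.maximalIdeal O)
  (Δ₁ : Subgroup ((ZMod M)ˣ ⧸ H)) (χ χ'' : Δ₁ →* O)

end Main

section Datum

variable (O : Type) [CommRing O] [IsDomain O] [IsDiscreteValuationRing O] [CharZero O]
  [IsAdicComplete (IsLocalRing.maximalIdeal O) O] [Finite (ResidueField O)]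
  (M : ℕ) [NeZero M] (hM : 6 ≤ M)
  (H : Subgroup (ZMod M)ˣ) (Ps : Set ℕ) (θ₀ : ℕ → O)
  (p : ℕ) [Fact p.Prime]
  (Δ₁ : Subgroup ((ZMod M)ˣ ⧸ H)) (χ : Δ₁ →* O)
  {N' : ℕ} [NeZero N'] (S : Finset ℕ) (z : ℕ → (ZMod M)ˣ)
  (ρbar : ResidualGaloisRep (ResidueField O))
  (b : Module.Basis (Fin 2) (ResidueField O) ρbar.V) (Smin : Finset ℕ)

end Datum

section Field

variable (O : Type) [CommRing O] [IsDomain O] [IsDiscreteValuationRing O] [CharZero O]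
  [IsAdicComplete (IsLocalRing.maximalIdeal O) O] [Finite (ResidueField O)]
  (M : ℕ) [NeZero M] (hM : 6 ≤ M)
  (H : Subgroup (ZMod M)ˣ) (Ps : Set ℕ) (θ₀ : ℕ → O)
  {p : ℕ} [Fact p.Prime] (hL : JhfLevel p M H) (hpO : (p : O) ∈ IsLocalRing.maximalIdeal O)
  (Δ₁ : Subgroup ((ZMod M)ˣ ⧸ H)) (χ χ'' : Δ₁ →* O)
  (ϖ : O) (hϖ : (Ideal.span {ϖ}).IsMaximal) (hχ : ∀ g : Δ₁, χ g - χ'' g ∈ Ideal.span {ϖ})

include hL hpO hϖ hχ in
/-- **the field [E′] of `IhaHecke`** on `M^χ`, from (VANISH) on `M^{χ''}` -/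
theorem khe_field {N' : ℕ} [NeZero N'] (hMN' : M ∣ N') {S : Finset ℕ}
    (hS : ∀ l : ℕ, l.Prime → l ∣ N' → l ∈ S) (hPs : ∀ l : ℕ, l.Prime → l ∉ S → l ∈ Ps)
    (hpS : p ∈ S) (hpN' : p ∣ N' ∧ ¬ p ^ 2 ∣ N')
    (z : ℕ → (ZMod M)ˣ)
    (a₀ : CuspForm.heckeAlgebra N' 2 (↑S : Set ℕ) →+* Module.End O (IhfH O O M H))
    (ha₀ : ∀ (l : ℕ) (hl : l.Prime) (hlN' : ¬ l ∣ N') (hlS : l ∉ (↑S : Set ℕ)),
      a₀ (CuspForm.heckeAlgebra.T hl hlN' hlS) = ihtrOp H O O z l)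
    [Nontrivial (IhmChiPart O M hM H Ps θ₀ Δ₁ χ'')]
    [Module.IsTorsionFree O (IhmChiPart O M hM H Ps θ₀ Δ₁ χ'')]
    (ρbar : ResidualGaloisRep (ResidueField O)) (habs : ρbar.IsAbsolutelyIrreducible)
    (hord : (GaloisRepAdic.ofResidualGaloisRep ρbar).IsOrdinaryAt p)
    (hfrob : ∀ (ℓ : ℕ), ℓ.Prime → ℓ ∉ S →
      ∀ P : ValuationSubring Qbar, P.LiesOverPrime ℓ → ∀ σ : GQ, P.IsFrobeniusAt σ ℓ →
        LinearMap.charpoly (ρbar.ρ σ) =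
          X ^ 2 - C (residue O (θ₀ ℓ)) * X + C ((ℓ : ResidueField O)))
    (b : Module.Basis (Fin 2) (ResidueField O) ρbar.V)
    (Smin : Finset ℕ) (hSmin : ∀ q ∈ Smin, q.Prime → q ≠ p → q ∣ N' ∧ ¬ q ^ 2 ∣ N')
    -- the datum on `M^χ`
    (a : CuspForm.heckeAlgebra N' 2 (↑S : Set ℕ) →+*
      Module.End O (IhmChiPart O M hM H Ps θ₀ Δ₁ χ))
    (θ' : CuspForm.heckeAlgebra N' 2 (↑S : Set ℕ) →+* ResidueField O)
    (hpart : ihdPart O a θ' = ⊤) [Nontrivial ↥(ihdPart O a θ')]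
    [Module.Finite O (IhmChiPart O M hM H Ps θ₀ Δ₁ χ)]
    [Module.IsTorsionFree O (IhmChiPart O M hM H Ps θ₀ Δ₁ χ)]
    (rA : GQ →* Matrix (Fin 2) (Fin 2) (IhdImg O a θ')) (hcts : MatCts (IhdImg O a θ') rA)
    (hD : KheDatum O M hM H Ps θ₀ p Δ₁ χ S z ρbar b Smin a θ' hpart rA hcts)
    -- the element of the Galois group and the constant
    (g : GQ) (c : O)
    -- (VANISH) for every datum on `M^{χ''}`
    (hvan : ∀ (a'' : CuspForm.heckeAlgebra N' 2 (↑S : Set ℕ) →+*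
        Module.End O (IhmChiPart O M hM H Ps θ₀ Δ₁ χ''))
      (θ'' : CuspForm.heckeAlgebra N' 2 (↑S : Set ℕ) →+* ResidueField O)
      (hpart'' : ihdPart O a'' θ'' = ⊤) (hnt : Nontrivial ↥(ihdPart O a'' θ''))
      (rA'' : GQ →* Matrix (Fin 2) (Fin 2) (IhdImg O a'' θ''))
      (hcts'' : MatCts (IhdImg O a'' θ'') rA''),
      KheDatum O M hM H Ps θ₀ p Δ₁ χ'' S z ρbar b Smin a'' θ'' hpart'' rA'' hcts'' →
        (rA'' g).trace = algebraMap O (IhdImg O a'' θ'') c)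
    (v : IhmChiPart O M hM H Ps θ₀ Δ₁ χ) :
    ∃ v' : IhmChiPart O M hM H Ps θ₀ Δ₁ χ,
      ihiAct O a θ' hpart ((rA g).trace - algebraMap O (IhdImg O a θ') c) v = ϖ • v' := by
  obtain ⟨a'', θ'', hpart'', hnt, rA'', hcts'', hD''⟩ :=
    khk_main_chi O M hM H Ps θ₀ hL hpO Δ₁ χ'' hMN' hS hPs hpS hpN' z a₀ ha₀ ρbar habs hord hfrob b Smin
      hSmin
  have h0 := hvan a'' θ'' hpart'' hnt rA'' hcts'' hD''
  haveI := hnt
  obtain ⟨haT, -, -, -, -, -, -, -, hFr, -⟩ := hD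
  obtain ⟨haT'', -, -, -, -, -, -, -, hFr'', -⟩ := hD''
  haveI : Module.Finite O (IhmChiPart O M hM H Ps θ₀ Δ₁ χ'') := inferInstance
  have hn₁ := ihe_exists_pow_le (𝒪 := O) (A := IhdImg O a θ') ϖ hϖ
  have hn₂ := ihe_exists_pow_le (𝒪 := O) (A := IhdImg O a'' θ'') ϖ hϖ
  refine ihe_field_of_vanish ϖ (ihmPartTDia O M hM H Ps θ₀) Δ₁ χ χ'' hχ rA hcts rA'' hcts'' hn₁ hn₂
    (ihiAct O a θ' hpart) (ihiAct O a'' θ'' hpart'') S (iheT O M hM H Ps θ₀ z)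
    (iheT_commute O M hM H Ps θ₀ Δ₁ z) ?_ ?_ g c ?_ v
  · intro ℓ hℓ hℓS P hP φ hφ
    have hℓN : ¬ ℓ ∣ N' := fun h => hℓS (hS ℓ hℓ h)
    rw [hFr ℓ hℓ hℓN (by simpa using hℓS) P hP φ hφ, haT ℓ hℓ hℓN (by simpa using hℓS),
      ihe_chiOp_mul_dia]
  · intro ℓ hℓ hℓS P hP φ hφ
    have hℓN : ¬ ℓ ∣ N' := fun h => hℓS (hS ℓ hℓ h)
    rw [hFr'' ℓ hℓ hℓN (by simpa using hℓS) P hP φ hφ, haT'' ℓ hℓ hℓN (by simpa using hℓS),
      ihe_chiOp_mul_dia]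
  · rw [h0, sub_self, map_zero]

end Field

end Fermat.Agent.Ihara
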